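import Fermat.Agent.S55.G.Rec.Tow.Spec
import Fermat.Agent.S55.G.Rec.H63AuxField
import Fermat.Agent.S55.Bridge.PlacePrime
import Fermat.Agent.S55.Bridge.H175.DecompLevel

/-!
# S55 / G / REC / TOW — leaf RAM (subtask 556): the auxiliary level `M = F · L(r, p^k)`  (helper978)

`ram : RamSpec p`.

Given a level `F` of `S`, a prime `p` and `k`, choose a prime `r ∉ S` with `p ^ k ∣ r - 1`
(Dirichlet for the progression `1 mod p^k`, Mathlib `Nat.exists_prime_gt_modEq_one`) and let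
`L' = L(r, p^k) ⊂ ℚ(ζ_r)` (helper63 `auxField63`), `M = F ⊔ L'`.

* `M` is a level of `S ∪ {r}`;
* `Gal(M/F) → Gal(L'/ℚ) = (ℤ/r)ˣ / p^k` is bijective: injective because
  `Gal(ℚ̄/M) = Gal(ℚ̄/F) ∩ Gal(ℚ̄/L')`, surjective because the inertia group `I` of a place `A` of
  `ℚ̄` above `r` is contained in `Gal(ℚ̄/F)` (`F` is unramified at `r ∉ S`) and maps onto
  `Gal(L'/ℚ)` (`L'` is totally ramified at `r`);
* every element of `Gal(M/F)` is the image of an element of `I`, hence fixes the prime of `M`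
  below `A`.
-/

set_option autoImplicit false
set_option linter.style.haveILetI false
set_option linter.unusedSectionVars false

open scoped NumberField Pointwise

noncomputable section

namespace Fermat.Agent.S55.G.Rec.TOW.H978

open Fermat.Agent.S55 Fermat.Agent.S55.Tow Fermat.Agent.S55.E1.H594
open IsDedekindDomain ExtCitation

local notation "Qb" => AlgebraicClosure ℚ

/-! ## 1. The auxiliary prime -/

/-- There is a prime `r ∉ S` with `n ∣ r - 1`. -/
theorem exists_prime_notMem_dvd_pred (S : Finset Nat.Primes) {n : ℕ} (hn : n ≠ 0) :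
    ∃ r : Nat.Primes, r ∉ S ∧ n ∣ (r : ℕ) - 1 := by
  obtain ⟨r, hr, hBr, hmod⟩ :=
    Nat.exists_prime_gt_modEq_one (S.sup fun q : Nat.Primes => (q : ℕ)) hn
  refine ⟨⟨r, hr⟩, fun hrS => ?_, (Nat.modEq_iff_dvd' hr.one_lt.le).1 hmod.symm⟩
  have h1 : r ≤ S.sup fun q : Nat.Primes => (q : ℕ) :=
    Finset.le_sup (f := fun q : Nat.Primes => (q : ℕ)) hrS
  exact absurd h1 (not_le.2 hBr)

/-! ## 2. Inertia -/

/-- The inertia group is contained in the decomposition group. -/
theorem mem_decomposition_of_mem_inertia (A : ValuationSubring Qb) {τ : Tow.GQ}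
    (hτ : τ ∈ A.inertiaSubgroupIn ℚ) : τ ∈ A.decompositionSubgroup ℚ := by
  obtain ⟨d, -, rfl⟩ := Subgroup.mem_map.1 hτ
  exact d.2

/-- Elements of the inertia group preserve the maximal ideal of `A`. -/
theorem apply_mem_nonunits_iff_of_mem_inertia (A : ValuationSubring Qb) {τ : Tow.GQ}
    (hτ : τ ∈ A.inertiaSubgroupIn ℚ) (y : Qb) : τ y ∈ A.nonunits ↔ y ∈ A.nonunits := by
  have h : τ • A = A := mem_decomposition_of_mem_inertia A hτ
  refine Bridge.H175.apply_mem_nonunits_iff A τ (fun x => ?_) y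
  have h1 : τ • x ∈ τ • A ↔ x ∈ A := ValuationSubring.smul_mem_pointwise_smul_iff
  rw [h] at h1
  exact h1

/-! ## 3. The auxiliary level -/

section level

/-- `r` as an element of `Nat.Primes`. -/
abbrev toPrimes (r : ℕ) [hr : Fact r.Prime] : Nat.Primes := ⟨r, hr.out⟩

variable {S : Finset Nat.Primes} (L : Level S) (r : ℕ) [Fact r.Prime] (n : ℕ)

/-- The auxiliary level `M = F ⊔ L(r, n)` of `S ∪ {r}`. -/
def auxLevel : Level (insert (toPrimes r) S) where
  F := L.F ⊔ auxField63 r n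
  unram := (L.unram.mono (Finset.subset_insert _ S)).sup
    (auxField63_isUnramifiedOutside r n _ (Finset.mem_insert_self _ S))
  normalU := by
    rw [IntermediateField.fixingSubgroup_sup, fixingSubgroup_auxField63]
    haveI := L.normalU
    infer_instance

theorem ofLE_le_auxLevel :
    Level.ofLE (Finset.subset_insert (toPrimes r) S) L ≤ auxLevel L r n :=
  show L.F ≤ L.F ⊔ auxField63 r n from le_sup_left

theorem mem_auxLevel_U (σ : Tow.GQ) :
    σ ∈ (auxLevel L r n).U ↔ σ ∈ L.U ∧ auxChar63 r n σ = 1 := by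
  show σ ∈ (L.F ⊔ auxField63 r n).fixingSubgroup ↔ _
  rw [IntermediateField.fixingSubgroup_sup, fixingSubgroup_auxField63, Subgroup.mem_inf,
    MonoidHom.mem_ker]
  rfl

/-- `mk σ ∈ Gal(M/F)` iff `σ ∈ Gal(ℚ̄/F)`. -/
theorem mk_mem_relGal_iff (σ : Tow.GQ) :
    (QuotientGroup.mk σ : (auxLevel L r n).Gal) ∈ Level.relGal (ofLE_le_auxLevel L r n) ↔
      σ ∈ L.U := by
  show Level.proj (ofLE_le_auxLevel L r n) (QuotientGroup.mk σ) = 1 ↔ _
  have h1 : Level.proj (ofLE_le_auxLevel L r n) (QuotientGroup.mk σ : (auxLevel L r n).Gal) =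
      (QuotientGroup.mk σ : (Level.ofLE (Finset.subset_insert (toPrimes r) S)
        L).Gal) := rfl
  rw [h1, QuotientGroup.eq_one_iff]
  rfl

/-- The character `Gal(M/ℚ) → (ℤ/r)ˣ / n` cutting out `L(r, n)`. -/
def auxQuot : (auxLevel L r n).Gal →* (ZMod r)ˣ ⧸ powSubgroup63 r n :=
  QuotientGroup.lift (auxLevel L r n).U (auxChar63 r n)
    (fun σ hσ => ((mem_auxLevel_U L r n σ).1 hσ).2)

@[simp] theorem auxQuot_mk (σ : Tow.GQ) :
    auxQuot L r n (QuotientGroup.mk σ : (auxLevel L r n).Gal) = auxChar63 r n σ := rfl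

variable (hrS : (toPrimes r) ∉ S)
include hrS

/-- `F` is unramified at `r`: the inertia group of a place above `r` fixes `F`. -/
theorem inertia_le_U (A : ValuationSubring Qb) (hA : A.LiesOverPrime r) :
    A.inertiaSubgroupIn ℚ ≤ L.U :=
  L.unram.2 (toPrimes r) hrS A hA

/-- Every element of `Gal(M/F)` is the image of an inertia element at `A`. -/
theorem exists_inertia_eq (A : ValuationSubring Qb) (hA : A.LiesOverPrime r)
    (z : (auxLevel L r n).Gal) (hz : z ∈ Level.relGal (ofLE_le_auxLevel L r n)) :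
    ∃ τ ∈ A.inertiaSubgroupIn ℚ, (QuotientGroup.mk τ : (auxLevel L r n).Gal) = z := by
  obtain ⟨σ, rfl⟩ := QuotientGroup.mk_surjective z
  have hσ : σ ∈ L.U := (mk_mem_relGal_iff L r n σ).1 hz
  obtain ⟨τ, hτ, hτσ⟩ := exists_inertia_auxChar_eq63 r n A hA σ
  refine ⟨τ, hτ, ?_⟩
  rw [QuotientGroup.eq, mem_auxLevel_U]
  refine ⟨L.U.mul_mem (L.U.inv_mem (inertia_le_U L r hrS A hA hτ)) hσ, ?_⟩
  rw [map_mul, map_inv, hτσ, inv_mul_cancel]

/-- `|Gal(M/F)| = n`. -/
theorem card_relGal (hn : n ∣ r - 1) :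
    Nat.card (Level.relGal (ofLE_le_auxLevel L r n)) = n := by
  have hA := Bridge.H175.padicPlace_liesOverPrime r
  set ψ : ↥(Level.relGal (ofLE_le_auxLevel L r n)) →* (ZMod r)ˣ ⧸ powSubgroup63 r n :=
    (auxQuot L r n).comp (Level.relGal (ofLE_le_auxLevel L r n)).subtype with hψ
  have hinj : Function.Injective ψ := by
    rw [injective_iff_map_eq_one]
    rintro ⟨z, hz⟩ h1
    obtain ⟨σ, rfl⟩ := QuotientGroup.mk_surjective z
    have hσ : σ ∈ L.U := (mk_mem_relGal_iff L r n σ).1 hz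
    have h2 : auxChar63 r n σ = 1 := h1
    apply Subtype.ext
    show (QuotientGroup.mk σ : (auxLevel L r n).Gal) = 1
    rw [QuotientGroup.eq_one_iff]
    exact (mem_auxLevel_U L r n σ).2 ⟨hσ, h2⟩
  have hsurj : Function.Surjective ψ := by
    intro c
    obtain ⟨g, rfl⟩ := auxChar63_surjective r n c
    obtain ⟨τ, hτ, hτg⟩ := exists_inertia_auxChar_eq63 r n (padicPlace r) hA g
    exact ⟨⟨QuotientGroup.mk τ,
      (mk_mem_relGal_iff L r n τ).2 (inertia_le_U L r hrS _ hA hτ)⟩, hτg⟩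
  rw [Nat.card_eq_of_bijective ψ ⟨hinj, hsurj⟩, card_quotient_powSubgroup63 r n hn]

/-- `Gal(M/F)` fixes the prime of `M` below the place `padicPlace r` of `ℚ̄`. -/
theorem fixesPrimeAbove :
    FixesPrimeAbove (auxLevel L r n) (toPrimes r) (Level.relGal (ofLE_le_auxLevel L r n)) := by
  have hr : r.Prime := Fact.out
  have hA := Bridge.H175.padicPlace_liesOverPrime r
  refine ⟨Bridge.placePrime (auxLevel L r n).F (padicPlace r) hr hA,
    Bridge.H594.natCast_mem_primeBelowF (auxLevel L r n).F (padicPlace r) hA, fun z hz => ?_⟩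
  obtain ⟨τ, hτ, rfl⟩ := exists_inertia_eq L r n hrS (padicPlace r) hA z hz
  apply HeightOneSpectrum.ext
  apply Ideal.ext
  intro x
  rw [G.mem_primeSMul_iff]
  show algebraMap (𝓞 (auxLevel L r n).F) Qb
      ((QuotientGroup.mk τ : (auxLevel L r n).Gal)⁻¹ • x) ∈ (padicPlace r).nonunits ↔
    algebraMap (𝓞 (auxLevel L r n).F) Qb x ∈ (padicPlace r).nonunits
  have h1 : algebraMap (𝓞 (auxLevel L r n).F) Qb
      ((QuotientGroup.mk τ : (auxLevel L r n).Gal)⁻¹ • x) =
      τ⁻¹ (algebraMap (𝓞 (auxLevel L r n).F) Qb x) :=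
    level_mk_smul (auxLevel L r n) τ⁻¹ (x : (auxLevel L r n).F)
  rw [h1]
  exact apply_mem_nonunits_iff_of_mem_inertia (padicPlace r)
    ((padicPlace r).inertiaSubgroupIn ℚ |>.inv_mem hτ) _

end level

/-! ## 4. `RamSpec` -/

/-- **RAM.** -/
theorem ram (p : ℕ) : RamSpec p := by
  intro hp S L k
  obtain ⟨r, hrS, hdvd⟩ := exists_prime_notMem_dvd_pred S (pow_ne_zero k hp.ne_zero)
  haveI : Fact (r : ℕ).Prime := ⟨r.2⟩
  exact ⟨r, hrS, auxLevel L (r : ℕ) (p ^ k), ofLE_le_auxLevel L (r : ℕ) (p ^ k),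
    card_relGal L (r : ℕ) (p ^ k) hrS hdvd, fixesPrimeAbove L (r : ℕ) (p ^ k) hrS⟩

end Fermat.Agent.S55.G.Rec.TOW.H978

end
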